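import Fermat.Agent.Lib.RR.Riemann

/-!
# S17 / tower H — projective embedding datum of the curve (definitions only; helper617)

Sorry-free DEFINITIONS shared by the TOP / WALL contract of tower H (row S17):

* `dot a y = Σ aᵢ yᵢ` (`= dotProduct`), `wedge y z` = Plücker coordinates of `y ∧ z`
  (indexed by ALL ordered pairs), `lin x a = Σ aᵢ xᵢ ∈ F`;
* `hypDiv vinf m x a = div(Σ aᵢ xᵢ) + m∞` (junk `0` if `Σ aᵢ xᵢ = 0`);
* `EmbData K F` : a place `∞`, a degree `m ≥ 2g + 1`, a `K`-basis `x₀, …, x_r` of `L(m∞)`,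
  representatives `pt P ∈ K^(r+1)` of the points `φ(P) ∈ ℙ^r` of the projective embedding
  `φ = (x₀ : … : x_r)` and `tn P` of a second point on the tangent line at `φ(P)`.
  `pt`, `tn` are characterised PROJECTIVELY:
  - `pt_spec` : the hyperplanes through `φ(P)` are the hyperplane sections containing `P`;
  - `tn_spec` : the hyperplanes containing the tangent line at `φ(P)` are the hyperplane
    sections containing `2P`.
  No normalisation is imposed (for `P ≠ ∞` one may take the values `xᵢ(P)` and the values of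
  `(xᵢ - xᵢ(P))/t`, at `∞` the leading and subleading coefficient vectors).
* `E.Z a` : the hyperplane section `Z_a ≥ 0`, of degree `m`.
-/

set_option autoImplicit false

noncomputable section

open AlgebraicCurve

namespace Fermat.Agent.S17.HWall

open Fermat.Agent.Lib.RR

variable {K F : Type*} [Field K] [Field F] [Algebra K F]

/-- `⟨a, y⟩ = Σ aᵢ yᵢ`. -/
abbrev dot {n : ℕ} (a y : Fin n → K) : K := dotProduct a y

/-- Plücker coordinates of `y ∧ z` (indexed by ALL ordered pairs). -/
def wedge {n : ℕ} (y z : Fin n → K) : Fin n × Fin n → K :=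
  fun p => y p.1 * z p.2 - y p.2 * z p.1

/-- `Σ aᵢ xᵢ ∈ F`. -/
def lin {n : ℕ} (x : Fin n → F) (a : Fin n → K) : F := ∑ i, a i • x i

open Classical in
/-- The hyperplane section `Z_a = div(Σ aᵢ xᵢ) + m∞` (junk value `0` if `Σ aᵢ xᵢ = 0`). -/
def hypDiv [FF1 K F] (vinf : Place K F) (m : ℕ) {n : ℕ} (x : Fin n → F) (a : Fin n → K) :
    Divisor K F :=
  if h : lin x a = 0 then 0 else divOf (lin x a) h + m • prim vinf

/-- A projective embedding of the curve by the complete linear system `|m∞|`, `m ≥ 2g + 1`,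
together with representatives of the points and of the tangent lines. -/
structure EmbData (K F : Type*) [Field K] [Field F] [Algebra K F] [FF1 K F] where
  /-- the point at infinity -/
  vinf : Place K F
  /-- the degree of the embedding -/
  m : ℕ
  /-- the dimension of the ambient projective space -/
  r : ℕ
  /-- a basis of `L(m∞)` -/
  x : Fin (r + 1) → F
  /-- a representative of the point `φ(P) ∈ ℙ^r` -/
  pt : Place K F → Fin (r + 1) → K
  /-- a second point on the tangent line at `φ(P)` -/
  tn : Place K F → Fin (r + 1) → K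
  hm : 2 * genusR K F + 1 ≤ m
  x_li : LinearIndependent K x
  x_span : Submodule.span K (Set.range x) = riemannRochSpace (m • prim vinf)
  /-- the hyperplanes through `φ(P)` are the hyperplane sections containing `P` -/
  pt_spec : ∀ (P : Place K F) (a : Fin (r + 1) → K), a ≠ 0 →
    (dot a (pt P) = 0 ↔ 0 < hypDiv vinf m x a P)
  /-- the hyperplanes containing the tangent line at `φ(P)` are the hyperplane sections
  containing `2P` -/
  tn_spec : ∀ (P : Place K F) (a : Fin (r + 1) → K), a ≠ 0 →
    ((dot a (pt P) = 0 ∧ dot a (tn P) = 0) ↔ 2 ≤ hypDiv vinf m x a P)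

variable [FF1 K F]

/-- The hyperplane section `Z_a`. -/
def EmbData.Z (E : EmbData K F) (a : Fin (E.r + 1) → K) : Divisor K F :=
  hypDiv E.vinf E.m E.x a

theorem EmbData.lin_ne_zero (E : EmbData K F) {a : Fin (E.r + 1) → K} (ha : a ≠ 0) :
    lin E.x a ≠ 0 := by
  intro h
  apply ha
  have := Fintype.linearIndependent_iff.mp E.x_li a h
  exact funext this

theorem EmbData.Z_eq (E : EmbData K F) {a : Fin (E.r + 1) → K} (ha : a ≠ 0) :
    E.Z a = divOf (lin E.x a) (E.lin_ne_zero ha) + E.m • prim E.vinf := by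
  unfold EmbData.Z hypDiv
  rw [dif_neg (E.lin_ne_zero ha)]

theorem EmbData.Z_apply (E : EmbData K F) {a : Fin (E.r + 1) → K} (ha : a ≠ 0)
    (P : Place K F) :
    E.Z a P = P.ord (lin E.x a) + (E.m • prim E.vinf : Divisor K F) P := by
  rw [E.Z_eq ha, Finsupp.add_apply, divOf_apply]

theorem EmbData.lin_mem (E : EmbData K F) (a : Fin (E.r + 1) → K) :
    lin E.x a ∈ riemannRochSpace (E.m • prim E.vinf) := by
  rw [← E.x_span]
  unfold lin
  exact Submodule.sum_mem _ fun i _ =>
    Submodule.smul_mem _ _ (Submodule.subset_span ⟨i, rfl⟩)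

/-- `Z_a ≥ 0`. -/
theorem EmbData.Z_nonneg (E : EmbData K F) (a : Fin (E.r + 1) → K) : 0 ≤ E.Z a := by
  by_cases ha : a = 0
  · subst ha
    unfold EmbData.Z hypDiv
    rw [dif_pos (by simp [lin])]
  · rw [Finsupp.le_def]
    intro P
    rw [E.Z_apply ha P, Finsupp.coe_zero, Pi.zero_apply]
    have h := (mem_riemannRochSpace_iff.mp (E.lin_mem a)) P
    rcases h with h | h
    · exact absurd h (E.lin_ne_zero ha)
    · linarith

/-- `deg Z_a = m`. -/
theorem EmbData.degree_Z (E : EmbData K F) {a : Fin (E.r + 1) → K} (ha : a ≠ 0) :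
    Divisor.degree (E.Z a) = E.m := by
  rw [E.Z_eq ha, map_add, degree_divOf, zero_add, map_nsmul]
  unfold prim
  rw [Divisor.degree_single, FF1.deg_eq_one]
  simp

end Fermat.Agent.S17.HWall
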