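import Fermat.Agent.S17.H617.HWallDefs

/-!
# S17 / tower H — the LOCAL WALL `(L1)`, `(L1')`: frozen STATEMENTS (definitions only; helper617)

Sorry-free.  Output interface of the wall of tower H (wall architect helper710, note #6325):
producers prove `L1Statement E`, `L1pStatement E` (under `4g + 1 ≤ E.m` if they wish); the
local → global layer turns them into the global contract (E3), (ADJ), … of the row-lead.

* `contr y W` : the linear form `T_{y,W}`, `⟨T_{y,W}, z⟩ = Σ_p W p · (y ∧ z)_p`;
* `supn v y` : sup norm; `lam v y z = - log (|y ∧ z|_v / (|y|_v |z|_v))`;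
* `IsGoodAbs v` : `v` nonarchimedean, or induced by a ring hom `K →+* ℂ`;
* `bnd v S N = [v archimedean]·N + Σ_{c ∈ S} |log v(c)|` : the shape of all local constants
  (`S` a finite set of nonzero constants; for a family of absolute values in which every
  `c ≠ 0` is a unit almost everywhere the bound has finite support);
* `L1Statement E`  : `| Σ_A Z_a(A) λ_v(A,P) + log(|a(xP)|_v / (|a|_v |xP|_v)) | ≤ bnd v S N`
  for ALL good `v`, `a ≠ 0`, `P ∉ Z_a`, with ONE `S` and ONE `N`;
* `L1pStatement E` : the first order version at a simple zero `A₀` of `a`;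
* `ChowStatement E` : the Chow form `R(a,T)` with `(C1)`, `(C2)` (BACKUP route only).

Blueprint: `coord/S17-HWall-helper617.md` (origin/helper617).
-/

set_option autoImplicit false

noncomputable section

open AlgebraicCurve

namespace Fermat.Agent.S17.HWall

open Fermat.Agent.Lib.RR

variable {K F : Type*} [Field K] [Field F] [Algebra K F]

/-! ## Linear algebra on `K^n` -/

/-- The linear form `T_{y,W}` with `⟨T_{y,W}, z⟩ = Σ_p W p · (y ∧ z)_p`; it vanishes at `y`, and
every linear form vanishing at `y ≠ 0` is of this shape. -/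
def contr {n : ℕ} (y : Fin n → K) (W : Fin n × Fin n → K) : Fin n → K :=
  fun k => ∑ j, (W (j, k) - W (k, j)) * y j

theorem dot_contr {n : ℕ} (y z : Fin n → K) (W : Fin n × Fin n → K) :
    dot (contr y W) z = ∑ p : Fin n × Fin n, W p * wedge y z p := by
  unfold contr wedge
  simp only [dot, dotProduct, Finset.sum_mul, sub_mul, Finset.sum_sub_distrib]
  rw [Fintype.sum_prod_type]
  simp only [mul_sub, Finset.sum_sub_distrib]
  congr 1
  · rw [Finset.sum_comm]
    exact Finset.sum_congr rfl fun j _ => Finset.sum_congr rfl fun k _ => by ring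
  · exact Finset.sum_congr rfl fun j _ => Finset.sum_congr rfl fun k _ => by ring

theorem wedge_self {n : ℕ} (y : Fin n → K) : wedge y y = 0 := by
  funext p
  simp [wedge, mul_comm]

theorem dot_contr_self {n : ℕ} (y : Fin n → K) (W : Fin n × Fin n → K) :
    dot (contr y W) y = 0 := by
  rw [dot_contr, wedge_self]
  simp

/-- sup norm of a finite family -/
def supn {ι : Type*} (v : AbsoluteValue K ℝ) (y : ι → K) : ℝ := ⨆ i, v (y i)

/-- `λ_v(y, z) = - log ( |y ∧ z|_v / (|y|_v |z|_v) )`: minus the logarithm of the `v`-adic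
projective (chordal) distance of the points `[y]`, `[z]`. -/
def lam {n : ℕ} (v : AbsoluteValue K ℝ) (y z : Fin n → K) : ℝ :=
  -Real.log (supn v (wedge y z) / (supn v y * supn v z))

/-- The admissible absolute values: nonarchimedean, or induced by a complex embedding. -/
def IsGoodAbs (v : AbsoluteValue K ℝ) : Prop :=
  IsNonarchimedean v ∨ ∃ φ : K →+* ℂ, ∀ c : K, v c = ‖φ c‖

open Classical in
/-- The shape of all local constants: `[v archimedean]·N + Σ_{c ∈ S} |log v(c)|`. -/
def bnd (v : AbsoluteValue K ℝ) (S : Finset K) (N : ℝ) : ℝ :=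
  (if IsNonarchimedean v then 0 else N) + ∑ c ∈ S, |Real.log (v c)|

variable [FF1 K F]

/-! ## The wall (LOCAL route, BACKUP; primary = helper710's global route) -/

/-- **(L1)**, uniform in the hyperplane `a`, the point `P` and the absolute value `v`. -/
def L1Statement (E : EmbData K F) : Prop :=
  ∃ (S : Finset K) (N : ℝ), (∀ c ∈ S, c ≠ 0) ∧
    ∀ v : AbsoluteValue K ℝ, IsGoodAbs v →
    ∀ (a : Fin (E.r + 1) → K) (P : Place K F), a ≠ 0 → dot a (E.pt P) ≠ 0 →
      |(E.Z a).sum (fun A n => (n : ℝ) * lam v (E.pt A) (E.pt P)) +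
          Real.log (v (dot a (E.pt P)) / (supn v a * supn v (E.pt P)))| ≤ bnd v S N

/-- **(L1')**, the first order version at a simple zero `A₀` of `a`. -/
def L1pStatement (E : EmbData K F) : Prop :=
  ∃ (S : Finset K) (N : ℝ), (∀ c ∈ S, c ≠ 0) ∧
    ∀ v : AbsoluteValue K ℝ, IsGoodAbs v →
    ∀ (a : Fin (E.r + 1) → K) (A₀ : Place K F), a ≠ 0 → E.Z a A₀ = 1 →
      |((E.Z a).erase A₀).sum (fun A n => (n : ℝ) * lam v (E.pt A) (E.pt A₀)) +
          Real.log (v (dot a (E.tn A₀)) * supn v (E.pt A₀) /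
            (supn v a * supn v (wedge (E.pt A₀) (E.tn A₀))))| ≤ bnd v S N

/-- **CHOW = (C1) + (C2)**: the Chow form `R(a, T)` of the embedded curve.
`(C1)` `R(a, T) = c(a) ∏_{A ∈ Z_a} ⟨T, φ(A)⟩^{Z_a(A)}` with `c(a) ≠ 0`, for every `a ≠ 0`;
`(C2)` `R(a, T) = ε R(T, a)`, `ε = ± 1` (Weil reciprocity). -/
def ChowStatement (E : EmbData K F) : Prop :=
  ∃ (R : MvPolynomial (Fin (E.r + 1) ⊕ Fin (E.r + 1)) K) (ε : K), ε ^ 2 = 1 ∧
    (∀ a : Fin (E.r + 1) → K, a ≠ 0 → ∃ c : K, c ≠ 0 ∧ ∀ T : Fin (E.r + 1) → K,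
      MvPolynomial.eval (Sum.elim a T) R =
        c * (E.Z a).prod (fun A n => dot T (E.pt A) ^ n.toNat)) ∧
    ∀ a T : Fin (E.r + 1) → K,
      MvPolynomial.eval (Sum.elim a T) R = ε * MvPolynomial.eval (Sum.elim T a) R

end Fermat.Agent.S17.HWall
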