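import Fermat.Agent.S37.Core.Final
import Fermat.Prelude.Def_ModularCurve_ArithmeticGalois
import Fermat.Prelude.Def_FLTPrelim_Ramification

/-!
# S17 row, piece W-UNR (helper617): division points are unramified outside `n N`

Statement of the piece (skeleton `Fermat.Agent.S17.Skel.unramified_division`):
for `ℓ ∤ n N`, `A` a valuation subring of `ℚ̄` over `ℓ`, `σ` in the inertia group at `A` and
`y ∈ J₀(N)(ℚ̄)` with `n • y` Galois-fixed, `σ • y = y`.

Everything in this file is fully proved; the geometric input is taken as an explicit hypothesis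
in interchangeable forms, from the most abstract to the ones produced by the rows S37 / S18:

* `smul_eq_of_red_invariant` : pure algebra (any group acting on any abelian group);
* `unramified_division_of_red` : from ANY additive map `red : J₀(N) →+ Y` which is invariant under
  the inertia group at `A` and injective on the `n`-torsion;
* `unramified_division_of_weakRedData` : from a `Fermat.Agent.S37.Core.WeakRedData M A ℓ σ₀` at an
  auxiliary level `M` together with a `PullData N M ℓ`;
* `unramified_division_of_S37_pieces` : the EXACT skeleton statement of W-UNR from the hypothesis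
  `H` of `Fermat.Agent.S37.Core.result_of_weakRedData` (the final interface of the S37 row), so
  that the S37 row delivers W-UNR for free;
* `unramified_division_of_placeReduction` : from a place reduction map `r` (Prelude
  `IsPlaceReductionModL` + `PrincipalGeneratedByIntegral`) which is inertia invariant on places,
  and the conclusion `InjTorsionModL` of the frozen statement S18.
-/

set_option autoImplicit false
set_option synthInstance.maxHeartbeats 400000

noncomputable section

namespace Fermat.Agent.S17.H617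

open ModularCurve ValuationSubring AlgebraicCurve Fermat.Agent.S37.Core

/-- `ℚ̄` -/
abbrev Qb617 : Type := AlgebraicClosure ℚ

/-- the absolute Galois group of `ℚ` -/
abbrev GQ617 : Type := Qb617 ≃ₐ[ℚ] Qb617

/-- The Mordell-Weil group `J₀(N)(ℚ)`. -/
abbrev MW617 (N : ℕ) : AddSubgroup (JZero N) := FixedPoints.addSubgroup GQ617 (JZero N)

section Abstract

variable {G J Y : Type*} [Group G] [AddCommGroup J] [DistribMulAction G J] [AddCommGroup Y]

/-- **Abstract W-UNR.**  If `red` is invariant under `σ` and injective on the `n`-torsion, and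
`n • y` is fixed by `σ`, then `σ` fixes `y`. -/
theorem smul_eq_of_red_invariant (red : J →+ Y) (n : ℕ) (σ : G)
    (hinv : ∀ x : J, red (σ • x) = red x)
    (hinj : ∀ x : J, n • x = 0 → red x = 0 → x = 0)
    (y : J) (hy : σ • (n • y) = n • y) : σ • y = y := by
  have hz : n • (σ • y - y) = 0 := by
    rw [smul_sub, ← smul_comm σ n y, hy, sub_self]
  have hr : red (σ • y - y) = 0 := by
    rw [map_sub, hinv, sub_self]
  exact sub_eq_zero.mp (hinj _ hz hr)

end Abstract

/-- **W-UNR from an abstract reduction map.** -/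
theorem unramified_division_of_red (N : ℕ) [NeZero N] (n : ℕ)
    (A : ValuationSubring Qb617) {Y : Type*} [AddCommGroup Y] (red : JZero N →+ Y)
    (hinertia : ∀ τ ∈ A.inertiaSubgroupIn ℚ, ∀ x : JZero N, red (τ • x) = red x)
    (hinj : ∀ x : JZero N, n • x = 0 → red x = 0 → x = 0)
    (σ : GQ617) (hσ : σ ∈ A.inertiaSubgroupIn ℚ)
    (y : JZero N) (hy : n • y ∈ MW617 N) : σ • y = y :=
  smul_eq_of_red_invariant red n σ (hinertia σ hσ) hinj y (hy σ)

/-- **W-UNR from the final interface of the S37 row** at one place: a `WeakRedData` at an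
auxiliary level `M` and a `PullData N M ℓ`. -/
theorem unramified_division_of_weakRedData (N M : ℕ) [NeZero N] [NeZero M] (n : ℕ)
    (ℓ : ℕ) [NeZero ℓ] (hℓn : ¬ ℓ ∣ n)
    (A : ValuationSubring Qb617) (σ₀ : GQ617)
    (W : WeakRedData M A ℓ σ₀) (Pd : PullData N M ℓ)
    (σ : GQ617) (hσ : σ ∈ A.inertiaSubgroupIn ℚ)
    (y : JZero N) (hy : n • y ∈ MW617 N) : σ • y = y := by
  refine unramified_division_of_red N n A (W.red.comp Pd.pull) ?_ ?_ σ hσ y hy
  · intro τ hτ x
    show W.red (Pd.pull (τ • x)) = W.red (Pd.pull x)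
    rw [Pd.galois, W.inertia τ hτ]
  · intro x hx h0
    refine Pd.inj_torsion n hℓn x hx ?_
    refine W.inj_torsion n hℓn _ ?_ h0
    rw [← map_nsmul, hx, map_zero]

/-- **W-UNR (exact skeleton statement) from the hypothesis `H` of
`Fermat.Agent.S37.Core.result_of_weakRedData`.** -/
theorem unramified_division_of_S37_pieces (N : ℕ) [NeZero N]
    (H : ∀ (ℓ : ℕ) (hℓ : ℓ.Prime), ¬ ℓ ∣ N →
      ∀ A : ValuationSubring (AlgebraicClosure ℚ), A.LiesOverPrime ℓ →
        ∀ σ₀ : AlgebraicClosure ℚ ≃ₐ[ℚ] AlgebraicClosure ℚ, A.IsFrobeniusAt σ₀ ℓ →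
          haveI : NeZero ℓ := ⟨hℓ.ne_zero⟩
          ∃ (M : ℕ) (_ : NeZero M), Nonempty (WeakRedData M A ℓ σ₀) ∧ Nonempty (PullData N M ℓ))
    (n : ℕ) (ℓ : ℕ) (hℓ : ℓ.Prime) (hℓn : ¬ ℓ ∣ n * N)
    (A : ValuationSubring Qb617) (hA : A.LiesOverPrime ℓ) (σ : GQ617)
    (hσ : σ ∈ A.inertiaSubgroupIn ℚ)
    (y : JZero N) (hy : n • y ∈ MW617 N) : σ • y = y := by
  have hℓN : ¬ ℓ ∣ N := fun h => hℓn (Dvd.dvd.mul_left h n)
  have hℓn' : ¬ ℓ ∣ n := fun h => hℓn (Dvd.dvd.mul_right h N)
  obtain ⟨σ₀, hσ₀⟩ := Fermat.Agent.S37.H99.exists_isFrobeniusAt ℓ hℓ A hA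
  haveI : NeZero ℓ := ⟨hℓ.ne_zero⟩
  obtain ⟨M, hM, ⟨W⟩, ⟨Pd⟩⟩ := H ℓ hℓ hℓN A hA σ₀ hσ₀
  exact unramified_division_of_weakRedData N M n ℓ hℓn' A σ₀ W Pd σ hσ y hy

/-- **W-UNR from a place reduction map and the conclusion of the frozen statement S18.** -/
theorem unramified_division_of_placeReduction (N : ℕ) [NeZero N] (n : ℕ)
    (ℓ : ℕ) (hℓn : ¬ ℓ ∣ n)
    (A : ValuationSubring Qb617)
    (hS18 : InjTorsionModL N ℓ A)
    (r : Place (AlgebraicClosure ℚ) (modularFunctionFieldBar N) →
      Place (IsLocalRing.ResidueField A)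
        (modularFunctionFieldFullC (IsLocalRing.ResidueField A) N))
    (isRed : IsPlaceReductionModL A N r)
    (gen : PrincipalGeneratedByIntegral A (IsLocalRing.residue A) N)
    (inertia : ∀ τ ∈ A.inertiaSubgroupIn ℚ,
      ∀ P : Place (AlgebraicClosure ℚ) (modularFunctionFieldBar N),
        r (arithmeticGalois (modularFunctionFieldFull N) τ • P) = r P)
    (σ : GQ617) (hσ : σ ∈ A.inertiaSubgroupIn ℚ)
    (y : JZero N) (hy : n • y ∈ MW617 N) : σ • y = y := by
  have hn0 : n ≠ 0 := fun h => hℓn (h ▸ dvd_zero ℓ)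
  refine unramified_division_of_red N n A (reductionPic0Along r isRed gen) ?_ ?_ σ hσ y hy
  · intro τ hτ x
    obtain ⟨E, rfl⟩ := Pic0.mk_surjective x
    rw [galois_smul_pic0_def, SemilinearAut.pic0_smul_mk, reductionPic0Along_mk,
      reductionPic0Along_mk]
    congr 1
    apply Subtype.ext
    rw [coe_reductionDegZeroAlong, coe_reductionDegZeroAlong, SemilinearAut.coe_degZeroSMulHom,
      SemilinearAut.divisor_smul_def, ← Finsupp.mapDomain_comp]
    congr 1
    funext P
    exact inertia τ hτ P
  · intro x hx h0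
    have h : ReductionInputsModL A N := ⟨r, isRed, gen⟩
    refine hS18 h n hℓn x hx ?_
    show reductionAlong A (IsLocalRing.residue A) N x = 0
    rw [reductionAlong_eq h, ← h0]
    exact (reductionPic0Along_eq_of_nsmul_eq_zero isRed h.choose_spec.1 gen hn0 hx).symm

end Fermat.Agent.S17.H617
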