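import Fermat.Agent.S17.H617.VdmLaplace
import Fermat.Agent.S17.H980.SiegelMinors
import Fermat.Agent.Lib.RR.H439.Pencil
import Fermat.Agent.Lib.RR.Adeles

/-!
# S17 / tower H, contract leaf S-VDM (helper617), part 2: independence of points

For an embedding datum `E` (degree `m ≥ 2g + 1`) and `d` distinct places with `d + 2g ≤ m + 1`
the points `pt P₁, …, pt P_d` are linearly independent (Riemann–Roch: `|m∞ - Σ_{i ≠ j} P_i|` has
no base point), so the Plücker vector of `pt P₁, …, pt P_d` is nonzero.  In particular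
`pt P ≠ 0` and `pt P ∧ pt Q ≠ 0` for `P ≠ Q`.
-/

set_option autoImplicit false

noncomputable section

open AlgebraicCurve

namespace Fermat.Agent.S17.H617V

open Fermat.Agent.Lib.RR Fermat.Agent.Lib.RR.H439 Fermat.Agent.S17.HWall Fermat.Agent.S17.HContract

variable {K F : Type*} [Field K] [Field F] [Algebra K F] [FF1 K F]

/-- A hyperplane through the points `P_i`, `i ≠ j`, which does not contain `P_j`. -/
theorem exists_form_sep (E : EmbData K F) {d : ℕ} (P : Fin d → Place K F)
    (hP : Function.Injective P) (hd : d + 2 * genusR K F ≤ E.m + 1) (j : Fin d) :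
    ∃ a : Fin (E.r + 1) → K, a ≠ 0 ∧ (∀ i, i ≠ j → dot a (E.pt (P i)) = 0) ∧
      dot a (E.pt (P j)) ≠ 0 := by
  classical
  set D : Divisor K F := ∑ i ∈ Finset.univ.erase j, prim (P i) with hD
  set Ej : Divisor K F := E.m • prim E.vinf - D with hEj
  have hD_apply : ∀ w : Place K F, D w = ∑ i ∈ Finset.univ.erase j, prim (P i) w := by
    intro w
    rw [hD, Finsupp.finsetSum_apply]
  have hprim_nonneg : ∀ (v w : Place K F), 0 ≤ prim v w := by
    intro v w
    by_cases h : w = v
    · subst h
      rw [prim_apply_self]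
      exact zero_le_one
    · rw [prim_apply_of_ne h]
  have hD_nonneg : ∀ w : Place K F, 0 ≤ D w := by
    intro w
    rw [hD_apply]
    exact Finset.sum_nonneg fun i _ => hprim_nonneg _ _
  have hD_ge : ∀ i, i ≠ j → 1 ≤ D (P i) := by
    intro i hi
    rw [hD_apply]
    have := Finset.single_le_sum (f := fun i' => prim (P i') (P i))
      (fun i' _ => hprim_nonneg _ _) (Finset.mem_erase.mpr ⟨hi, Finset.mem_univ i⟩)
    simpa using this
  have hD_j : D (P j) = 0 := by
    rw [hD_apply]
    refine Finset.sum_eq_zero fun i hi => ?_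
    have hij : i ≠ j := (Finset.mem_erase.mp hi).1
    exact prim_apply_of_ne fun h => hij (hP h).symm
  have hdegD : Divisor.degree D = (d : ℤ) - 1 := by
    rw [hD, map_sum]
    simp only [degree_prim', Finset.sum_const, nsmul_eq_mul, mul_one]
    rw [Finset.card_erase_of_mem (Finset.mem_univ j), Finset.card_univ, Fintype.card_fin]
    have : 1 ≤ d := Nat.succ_le_of_lt (Fin.pos j)
    push_cast [Nat.cast_sub this]
    ring
  have hdeg : 2 * (genusFF K F : ℤ) ≤ Divisor.degree Ej := by
    rw [hEj, map_sub, map_nsmul, degree_prim', hdegD, genusFF_eq_genusR]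
    simp only [nsmul_eq_mul, mul_one]
    have : ((d + 2 * genusR K F : ℕ) : ℤ) ≤ ((E.m + 1 : ℕ) : ℤ) := by exact_mod_cast hd
    push_cast at this
    linarith
  obtain ⟨f, hf, hf'⟩ := exists_mem_not_mem_sub hdeg (P j)
  have hf0 : f ≠ 0 := by
    rintro rfl
    exact hf' (Submodule.zero_mem _)
  have hford : ∀ v : Place K F, -Ej v ≤ v.ord f := fun v =>
    ((mem_riemannRochSpace_iff.mp hf) v).resolve_left hf0
  have hEj_apply : ∀ v : Place K F, Ej v = (E.m • prim E.vinf : Divisor K F) v - D v := by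
    intro v
    rw [hEj, Finsupp.sub_apply]
  have hfm : f ∈ riemannRochSpace (E.m • prim E.vinf) := by
    rw [mem_riemannRochSpace_iff]
    intro v
    right
    have h1 := hford v
    have h2 := hD_nonneg v
    rw [hEj_apply] at h1
    linarith
  rw [← E.x_span] at hfm
  obtain ⟨a, ha⟩ := (Submodule.mem_span_range_iff_exists_fun K).mp hfm
  have hlin : lin E.x a = f := ha
  have ha0 : a ≠ 0 := by
    rintro rfl
    apply hf0
    rw [← hlin]
    simp [lin]
  refine ⟨a, ha0, fun i hi => ?_, ?_⟩
  · rw [E.pt_spec (P i) a ha0]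
    show 0 < E.Z a (P i)
    rw [E.Z_apply ha0, hlin]
    have h1 := hford (P i)
    have h2 := hD_ge i hi
    rw [hEj_apply] at h1
    linarith
  · rw [Ne, E.pt_spec (P j) a ha0]
    show ¬ 0 < E.Z a (P j)
    rw [E.Z_apply ha0, hlin]
    have h1 := ord_eq_of_mem_of_not_mem_sub Ej (P j) hf hf'
    rw [hEj_apply, hD_j] at h1
    rw [h1]
    simp

theorem dot_sum_smul {n d : ℕ} (a : Fin n → K) (c : Fin d → K) (y : Fin d → Fin n → K) :
    dot a (∑ i, c i • y i) = ∑ i, c i * dot a (y i) := by
  unfold dot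
  rw [dotProduct_sum]
  exact Finset.sum_congr rfl fun i _ => by rw [dotProduct_smul, smul_eq_mul]

/-- **INDEP**: `d ≤ m + 1 - 2g` distinct points are linearly independent. -/
theorem linearIndependent_pt (E : EmbData K F) {d : ℕ} (P : Fin d → Place K F)
    (hP : Function.Injective P) (hd : d + 2 * genusR K F ≤ E.m + 1) :
    LinearIndependent K (fun i => E.pt (P i)) := by
  rw [Fintype.linearIndependent_iff]
  intro c hc j
  obtain ⟨a, -, h0, h1⟩ := exists_form_sep E P hP hd j
  have h := congrArg (dot a) hc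
  rw [dot_sum_smul, Finset.sum_eq_single j] at h
  · have h' : c j * dot a (E.pt (P j)) = 0 := by
      rw [h]
      simp [dot]
    exact (mul_eq_zero.mp h').resolve_right h1
  · intro i _ hi
    rw [h0 i hi, mul_zero]
  · intro hj
    exact absurd (Finset.mem_univ j) hj

/-- the Plücker vector of `d ≤ m + 1 - 2g` distinct points is nonzero -/
theorem plucker_pt_ne_zero (E : EmbData K F) {d : ℕ} (P : Fin d → Place K F)
    (hP : Function.Injective P) (hd : d + 2 * genusR K F ≤ E.m + 1) :
    (plucker fun i => E.pt (P i)) ≠ 0 := by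
  obtain ⟨e, he⟩ := Fermat.Agent.S17.H980.exists_det_submatrix_ne_zero
    (Matrix.of fun i => E.pt (P i)) (linearIndependent_pt E P hP hd)
  intro h
  apply he
  exact congrFun h e

theorem pt_ne_zero (E : EmbData K F) (P : Place K F) : E.pt P ≠ 0 := by
  have hd : 1 + 2 * genusR K F ≤ E.m + 1 := by have := E.hm; omega
  obtain ⟨a, -, -, h1⟩ := exists_form_sep E (fun _ : Fin 1 => P)
    (fun i j _ => Subsingleton.elim i j) hd 0
  intro h
  apply h1
  rw [h]
  simp [dot]

theorem dot_mul_dot_sub {n : ℕ} (a b y z : Fin n → K) :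
    dot b y * dot a z - dot a y * dot b z = ∑ p : Fin n × Fin n, b p.1 * a p.2 * wedge y z p := by
  unfold wedge
  rw [Fintype.sum_prod_type]
  simp only [dot, dotProduct, mul_sub, Finset.sum_sub_distrib, Finset.sum_mul, Finset.mul_sum]
  congr 1
  · rw [Finset.sum_comm]
    exact Finset.sum_congr rfl fun k _ => Finset.sum_congr rfl fun l _ => by ring
  · exact Finset.sum_congr rfl fun k _ => Finset.sum_congr rfl fun l _ => by ring

theorem wedge_pt_ne_zero (E : EmbData K F) {P Q : Place K F} (hPQ : P ≠ Q) :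
    wedge (E.pt P) (E.pt Q) ≠ 0 := by
  have hd : 2 + 2 * genusR K F ≤ E.m + 1 := by have := E.hm; omega
  have hinj : Function.Injective (![P, Q] : Fin 2 → Place K F) := by
    intro i j hij
    fin_cases i <;> fin_cases j <;> simp_all
  obtain ⟨a, -, ha0, ha1⟩ := exists_form_sep E ![P, Q] hinj hd 1
  obtain ⟨b, -, hb0, hb1⟩ := exists_form_sep E ![P, Q] hinj hd 0
  have ha0' : dot a (E.pt P) = 0 := ha0 0 (by decide)
  have ha1' : dot a (E.pt Q) ≠ 0 := ha1
  have hb0' : dot b (E.pt Q) = 0 := hb0 1 (by decide)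
  have hb1' : dot b (E.pt P) ≠ 0 := hb1
  intro h
  have key := dot_mul_dot_sub a b (E.pt P) (E.pt Q)
  rw [h, ha0', zero_mul, sub_zero] at key
  simp only [Pi.zero_apply, mul_zero, Finset.sum_const_zero] at key
  exact (mul_ne_zero hb1' ha1') key

end Fermat.Agent.S17.H617V
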