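import Fermat.Agent.S17.H17.HContract
import Fermat.Agent.S17.H617.HWallStmt

/-!
# S17 / tower H, contract leaf S-VDM (helper617), part 1: the Laplace form

For vectors `y₀, …, y_d ∈ K^n` and an embedding `e : Fin (d+1) ↪ Fin n` (a choice of `d + 1`
columns) the Plücker coordinate `plucker y e` is a LINEAR FORM in the last vector `y_d`:
`plucker y e = ⟨lapForm y e, y_d⟩`, where the coefficients of `lapForm y e` are (up to sign)
Plücker coordinates of `y₀, …, y_{d-1}`, and `lapForm y e` vanishes at `y₀, …, y_{d-1}`.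
Mathlib only (plus the definitions `dot`, `supn`, `plucker` of the contract).
-/

set_option autoImplicit false

noncomputable section

namespace Fermat.Agent.S17.H617V

open Fermat.Agent.S17.HWall Fermat.Agent.S17.HContract

variable {K : Type*} [Field K]

/-- the embedding obtained by omitting the column `j` -/
def omitEmb {d n : ℕ} (e : Fin (d + 1) ↪ Fin n) (j : Fin (d + 1)) : Fin d ↪ Fin n :=
  (Fin.succAboveEmb j).trans e

@[simp] theorem omitEmb_apply {d n : ℕ} (e : Fin (d + 1) ↪ Fin n) (j : Fin (d + 1)) (i : Fin d) :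
    omitEmb e j i = e (j.succAbove i) := rfl

/-- the first `d` vectors -/
def initVec {d n : ℕ} (y : Fin (d + 1) → Fin n → K) : Fin d → Fin n → K :=
  fun i => y (Fin.castSucc i)

/-- the cofactor of the entry `(d, j)` -/
def cof {d n : ℕ} (y : Fin (d + 1) → Fin n → K) (e : Fin (d + 1) ↪ Fin n) (j : Fin (d + 1)) : K :=
  (-1) ^ (d + (j : ℕ)) * plucker (initVec y) (omitEmb e j)

/-- **The Laplace form.** -/
def lapForm {d n : ℕ} (y : Fin (d + 1) → Fin n → K) (e : Fin (d + 1) ↪ Fin n) : Fin n → K :=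
  fun k => ∑ j, if e j = k then cof y e j else 0

/-- Laplace expansion along the last row, after replacing the last row by `u`. -/
theorem det_updateRow_last {d n : ℕ} (y : Fin (d + 1) → Fin n → K) (e : Fin (d + 1) ↪ Fin n)
    (u : Fin (d + 1) → K) :
    Matrix.det ((Matrix.of fun i j => y i (e j)).updateRow (Fin.last d) u) =
      ∑ j, cof y e j * u j := by
  rw [Matrix.det_succ_row _ (Fin.last d)]
  refine Finset.sum_congr rfl fun j _ => ?_
  rw [Matrix.updateRow_self]
  have hsub : ((Matrix.of fun i j => y i (e j)).updateRow (Fin.last d) u).submatrix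
      (Fin.last d).succAbove j.succAbove = Matrix.of fun i j' => initVec y i (omitEmb e j j') := by
    ext i j'
    rw [Matrix.submatrix_apply, Matrix.updateRow_ne (Fin.succAbove_ne (Fin.last d) i)]
    simp [initVec, Fin.succAbove_last]
  rw [hsub]
  unfold cof plucker
  simp only [Fin.val_last]
  ring

theorem dot_lapForm {d n : ℕ} (y : Fin (d + 1) → Fin n → K) (e : Fin (d + 1) ↪ Fin n)
    (z : Fin n → K) :
    dot (lapForm y e) z =
      Matrix.det ((Matrix.of fun i j => y i (e j)).updateRow (Fin.last d) fun j => z (e j)) := by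
  rw [det_updateRow_last]
  unfold lapForm
  simp only [dot, dotProduct, Finset.sum_mul]
  rw [Finset.sum_comm]
  refine Finset.sum_congr rfl fun j _ => ?_
  rw [Finset.sum_eq_single (e j)]
  · simp
  · intro k _ hk
    rw [if_neg (Ne.symm hk), zero_mul]
  · intro h
    exact absurd (Finset.mem_univ _) h

/-- `plucker y e = ⟨lapForm y e, y_d⟩`. -/
theorem dot_lapForm_last {d n : ℕ} (y : Fin (d + 1) → Fin n → K) (e : Fin (d + 1) ↪ Fin n) :
    dot (lapForm y e) (y (Fin.last d)) = plucker y e := by
  rw [dot_lapForm]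
  unfold plucker
  congr 1
  ext i j
  by_cases hi : i = Fin.last d
  · subst hi
    rw [Matrix.updateRow_self]
    rfl
  · rw [Matrix.updateRow_ne hi]

/-- the Laplace form vanishes at `y₀, …, y_{d-1}` -/
theorem dot_lapForm_castSucc {d n : ℕ} (y : Fin (d + 1) → Fin n → K) (e : Fin (d + 1) ↪ Fin n)
    (i : Fin d) : dot (lapForm y e) (y (Fin.castSucc i)) = 0 := by
  rw [dot_lapForm]
  have hne : Fin.castSucc i ≠ Fin.last d := Fin.castSucc_ne_last i
  refine Matrix.det_zero_of_row_eq hne ?_
  rw [Matrix.updateRow_self, Matrix.updateRow_ne hne]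
  rfl

/-- the coefficients of the Laplace form are, up to sign, Plücker coordinates of the first `d`
vectors -/
theorem lapForm_apply_eq {d n : ℕ} (y : Fin (d + 1) → Fin n → K) (e : Fin (d + 1) ↪ Fin n)
    (k : Fin n) :
    lapForm y e k = 0 ∨ ∃ j, lapForm y e k = cof y e j := by
  unfold lapForm
  by_cases h : ∃ j, e j = k
  · obtain ⟨j, hj⟩ := h
    right
    refine ⟨j, ?_⟩
    rw [Finset.sum_eq_single j]
    · rw [if_pos hj]
    · intro j' _ hj'
      rw [if_neg]
      intro h'
      exact hj' (e.injective (h'.trans hj.symm))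
    · intro h'
      exact absurd (Finset.mem_univ _) h'
  · left
    refine Finset.sum_eq_zero fun j _ => ?_
    rw [if_neg]
    intro h'
    exact h ⟨j, h'⟩

theorem abv_cof {d n : ℕ} (v : AbsoluteValue K ℝ) (y : Fin (d + 1) → Fin n → K)
    (e : Fin (d + 1) ↪ Fin n) (j : Fin (d + 1)) :
    v (cof y e j) = v (plucker (initVec y) (omitEmb e j)) := by
  unfold cof
  rw [v.map_mul, v.map_pow, v.map_neg, v.map_one, one_pow, one_mul]

theorem supn_nonneg {ι : Type*} (v : AbsoluteValue K ℝ) (y : ι → K) : 0 ≤ supn v y :=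
  Real.iSup_nonneg fun i => v.nonneg _

theorem le_supn {ι : Type*} [Finite ι] (v : AbsoluteValue K ℝ) (y : ι → K) (i : ι) :
    v (y i) ≤ supn v y :=
  le_ciSup (f := fun i => v (y i)) (Set.finite_range _).bddAbove i

theorem supn_le {ι : Type*} [Finite ι] (v : AbsoluteValue K ℝ) (y : ι → K) {B : ℝ} (hB : 0 ≤ B)
    (h : ∀ i, v (y i) ≤ B) : supn v y ≤ B := by
  unfold supn
  rcases isEmpty_or_nonempty ι with hι | hι
  · rw [Real.iSup_of_isEmpty]
    exact hB
  · exact ciSup_le h

theorem supn_pos {ι : Type*} [Finite ι] (v : AbsoluteValue K ℝ) {y : ι → K} (hy : y ≠ 0) :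
    0 < supn v y := by
  obtain ⟨i, hi⟩ := Function.ne_iff.mp hy
  exact lt_of_lt_of_le (v.pos hi) (le_supn v y i)

/-- `|lapForm y e|_v ≤ |y₀ ∧ … ∧ y_{d-1}|_v` -/
theorem supn_lapForm_le {d n : ℕ} (v : AbsoluteValue K ℝ) (y : Fin (d + 1) → Fin n → K)
    (e : Fin (d + 1) ↪ Fin n) :
    supn v (lapForm y e) ≤ supn v (plucker (initVec y)) := by
  refine supn_le v _ (supn_nonneg v _) fun k => ?_
  rcases lapForm_apply_eq y e k with h | ⟨j, hj⟩
  · rw [h, map_zero]
    exact supn_nonneg v _
  · rw [hj, abv_cof]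
    exact le_supn v (plucker (initVec y)) (omitEmb e j)

end Fermat.Agent.S17.H617V
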