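import Fermat.Agent.S17.H617.VdmIndep

/-!
# S17 / tower H, contract leaf S-VDM (helper617), part 3: the local Vandermonde inequality

For every good absolute value `v`, distinct places `P₁, …, P_d` (`d + 2g ≤ m + 1`) and the
constants `S`, `N` of `(L1)`:

`log |pt P₁ ∧ … ∧ pt P_d|_v ≤ Σ_i log |pt P_i|_v - Σ_{i<j} λ_v(P_i, P_j) + d (bnd v S N + m c_v)`,

`c_v = 0` (nonarchimedean), `log 2` (archimedean).  Proof: induction on `d`; the Plücker coordinate
`(y₁ ∧ … ∧ y_d)_e` is the value at `y_d` of the Laplace form `a_e`, which vanishes at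
`y₁, …, y_{d-1}` and has `|a_e|_v ≤ |y₁ ∧ … ∧ y_{d-1}|_v`; apply the UPPER half of `(L1)` to
`(a_e, P_d)` and `λ_v ≥ -c_v`.
-/

set_option autoImplicit false

noncomputable section

open AlgebraicCurve

namespace Fermat.Agent.S17.H617V

open Fermat.Agent.Lib.RR Fermat.Agent.S17.HWall Fermat.Agent.S17.HContract

section Local

variable {K : Type*} [Field K]

open Classical in
/-- the local constant of the wedge inequality: `0` (nonarchimedean), `log 2` (archimedean) -/
def cv (v : AbsoluteValue K ℝ) : ℝ := if IsNonarchimedean v then 0 else Real.log 2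

theorem cv_nonneg (v : AbsoluteValue K ℝ) : 0 ≤ cv v := by
  unfold cv
  split_ifs
  · exact le_rfl
  · exact Real.log_nonneg (by norm_num)

theorem abv_sub_le_exp_cv (v : AbsoluteValue K ℝ) (a b : K) {B : ℝ} (ha : v a ≤ B)
    (hb : v b ≤ B) : v (a - b) ≤ Real.exp (cv v) * B := by
  unfold cv
  split_ifs with h
  · rw [Real.exp_zero, one_mul]
    have h1 := h a (-b)
    rw [v.map_neg, ← sub_eq_add_neg] at h1
    exact h1.trans (max_le ha hb)
  · rw [Real.exp_log (by norm_num : (0 : ℝ) < 2)]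
    have h1 := v.add_le a (-b)
    rw [v.map_neg, ← sub_eq_add_neg] at h1
    linarith

theorem supn_wedge_le (v : AbsoluteValue K ℝ) {n : ℕ} (y z : Fin n → K) :
    supn v (wedge y z) ≤ Real.exp (cv v) * (supn v y * supn v z) := by
  refine supn_le v _ (mul_nonneg (Real.exp_pos _).le
    (mul_nonneg (supn_nonneg v y) (supn_nonneg v z))) fun p => ?_
  unfold wedge
  refine abv_sub_le_exp_cv v _ _ ?_ ?_
  · rw [v.map_mul]
    exact mul_le_mul (le_supn v y p.1) (le_supn v z p.2) (v.nonneg _) (supn_nonneg v y)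
  · rw [v.map_mul]
    exact mul_le_mul (le_supn v y p.2) (le_supn v z p.1) (v.nonneg _) (supn_nonneg v y)

/-- `λ_v ≥ -c_v` -/
theorem neg_cv_le_lam (v : AbsoluteValue K ℝ) {n : ℕ} (y z : Fin n → K) :
    -cv v ≤ lam v y z := by
  unfold lam
  rw [neg_le_neg_iff]
  have hden0 : 0 ≤ supn v y * supn v z := mul_nonneg (supn_nonneg v y) (supn_nonneg v z)
  have hR0 : 0 ≤ supn v (wedge y z) / (supn v y * supn v z) :=
    div_nonneg (supn_nonneg v _) hden0
  rcases hR0.eq_or_lt with h | h
  · rw [← h, Real.log_zero]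
    exact cv_nonneg v
  · rw [Real.log_le_iff_le_exp h]
    have hden : 0 < supn v y * supn v z := by
      rcases hden0.eq_or_lt with h' | h'
      · rw [← h', div_zero] at h
        exact absurd h (lt_irrefl _)
      · exact h'
    rw [div_le_iff₀ hden]
    exact supn_wedge_le v y z

end Local

section Curve

variable {K F : Type*} [Field K] [Field F] [Algebra K F] [FF1 K F]

/-- the bound of `(L1)` for given constants `S`, `N` -/
def L1Bound (E : EmbData K F) (S : Finset K) (N : ℝ) : Prop :=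
  ∀ v : AbsoluteValue K ℝ, IsGoodAbs v →
    ∀ (a : Fin (E.r + 1) → K) (P : Place K F), a ≠ 0 → dot a (E.pt P) ≠ 0 →
      |(E.Z a).sum (fun A n => (n : ℝ) * lam v (E.pt A) (E.pt P)) +
          Real.log (v (dot a (E.pt P)) / (supn v a * supn v (E.pt P)))| ≤ bnd v S N

theorem l1Statement_iff (E : EmbData K F) :
    L1Statement E ↔ ∃ (S : Finset K) (N : ℝ), (∀ c ∈ S, c ≠ 0) ∧ L1Bound E S N := Iff.rfl

theorem sum_Z_eq (E : EmbData K F) {a : Fin (E.r + 1) → K} (ha : a ≠ 0) :
    ∑ A ∈ (E.Z a).support, ((E.Z a A : ℤ) : ℝ) = E.m := by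
  have h := E.degree_Z ha
  rw [degree_eq_sum] at h
  have h' : ∑ A ∈ (E.Z a).support, E.Z a A = (E.m : ℤ) := by
    rw [← h]
    refine Finset.sum_congr rfl fun A _ => ?_
    rw [deg_eq_one A]
    simp
  have := congrArg (fun z : ℤ => (z : ℝ)) h'
  simpa using this

/-- the hyperplane section through `Q₁, …, Q_d` is at least as close to `P` as the `Q_i` -/
theorem sum_Z_lam_ge (E : EmbData K F) (v : AbsoluteValue K ℝ) {a : Fin (E.r + 1) → K}
    (ha : a ≠ 0) {d : ℕ} (Q : Fin d → Place K F) (hQ : Function.Injective Q)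
    (hQa : ∀ i, dot a (E.pt (Q i)) = 0) (P : Place K F) :
    ∑ i, lam v (E.pt (Q i)) (E.pt P) - E.m * cv v ≤
      (E.Z a).sum (fun A n => (n : ℝ) * lam v (E.pt A) (E.pt P)) := by
  classical
  have hZnn : ∀ A, 0 ≤ E.Z a A := fun A => Finsupp.le_def.mp (E.Z_nonneg a) A
  have hZQ : ∀ i, 1 ≤ E.Z a (Q i) := fun i => (E.pt_spec (Q i) a ha).mp (hQa i)
  have hpos : ∀ A, 0 ≤ lam v (E.pt A) (E.pt P) + cv v := fun A => by
    have := neg_cv_le_lam v (E.pt A) (E.pt P)
    linarith
  have hsum : (E.Z a).sum (fun A n => (n : ℝ) * lam v (E.pt A) (E.pt P)) =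
      ∑ A ∈ (E.Z a).support, (E.Z a A : ℝ) * (lam v (E.pt A) (E.pt P) + cv v) -
        E.m * cv v := by
    rw [Finsupp.sum, ← sum_Z_eq E ha, Finset.sum_mul, ← Finset.sum_sub_distrib]
    refine Finset.sum_congr rfl fun A _ => ?_
    ring
  rw [hsum]
  have hT : Finset.univ.image Q ⊆ (E.Z a).support := by
    intro A hA
    obtain ⟨i, -, rfl⟩ := Finset.mem_image.mp hA
    rw [Finsupp.mem_support_iff]
    have := hZQ i
    omega
  have h1 : ∑ A ∈ Finset.univ.image Q, (lam v (E.pt A) (E.pt P) + cv v) ≤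
      ∑ A ∈ (E.Z a).support, (E.Z a A : ℝ) * (lam v (E.pt A) (E.pt P) + cv v) := by
    refine le_trans (Finset.sum_le_sum ?_) (Finset.sum_le_sum_of_subset_of_nonneg hT ?_)
    · intro A hA
      obtain ⟨i, -, rfl⟩ := Finset.mem_image.mp hA
      have h1 : (1 : ℝ) ≤ (E.Z a (Q i) : ℝ) := by exact_mod_cast hZQ i
      nlinarith [hpos (Q i)]
    · intro A _ _
      exact mul_nonneg (by exact_mod_cast hZnn A) (hpos A)
  have h2 : ∑ A ∈ Finset.univ.image Q, (lam v (E.pt A) (E.pt P) + cv v) =
      ∑ i, (lam v (E.pt (Q i)) (E.pt P) + cv v) :=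
    Finset.sum_image fun i _ j _ h => hQ h
  have h3 : ∑ i, lam v (E.pt (Q i)) (E.pt P) ≤ ∑ i, (lam v (E.pt (Q i)) (E.pt P) + cv v) :=
    Finset.sum_le_sum fun i _ => by linarith [cv_nonneg v]
  linarith

/-- **The local step.** -/
theorem log_plucker_le (E : EmbData K F) {S : Finset K} {N : ℝ} (hL1 : L1Bound E S N)
    (v : AbsoluteValue K ℝ) (hv : IsGoodAbs v) {d : ℕ} (P : Fin (d + 1) → Place K F)
    (hP : Function.Injective P) (e : Fin (d + 1) ↪ Fin (E.r + 1))
    (he : plucker (fun i => E.pt (P i)) e ≠ 0) :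
    Real.log (v (plucker (fun i => E.pt (P i)) e)) ≤
      Real.log (supn v (plucker fun i : Fin d => E.pt (P i.castSucc))) +
        Real.log (supn v (E.pt (P (Fin.last d)))) -
        ∑ i : Fin d, lam v (E.pt (P i.castSucc)) (E.pt (P (Fin.last d))) +
        (bnd v S N + E.m * cv v) := by
  set y : Fin (d + 1) → Fin (E.r + 1) → K := fun i => E.pt (P i) with hy
  have hdot : dot (lapForm y e) (E.pt (P (Fin.last d))) = plucker y e := dot_lapForm_last y e
  have hdot_ne : dot (lapForm y e) (E.pt (P (Fin.last d))) ≠ 0 := by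
    rw [hdot]
    exact he
  have ha0 : lapForm y e ≠ 0 := by
    intro h
    apply hdot_ne
    rw [h]
    simp [dot]
  have hL := (abs_le.mp (hL1 v hv (lapForm y e) (P (Fin.last d)) ha0 hdot_ne)).2
  have hsum := sum_Z_lam_ge E v ha0 (fun i : Fin d => P i.castSucc)
    (hP.comp (Fin.castSucc_injective d)) (fun i => dot_lapForm_castSucc y e i) (P (Fin.last d))
  have h1 : 0 < v (plucker y e) := v.pos he
  have h2 : 0 < supn v (lapForm y e) := supn_pos v ha0
  have h3 : 0 < supn v (E.pt (P (Fin.last d))) := supn_pos v (pt_ne_zero E _)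
  have h4 : supn v (lapForm y e) ≤ supn v (plucker (initVec y)) := supn_lapForm_le v y e
  have h5 : Real.log (supn v (lapForm y e)) ≤ Real.log (supn v (plucker (initVec y))) :=
    Real.log_le_log h2 h4
  rw [hdot, Real.log_div h1.ne' (mul_pos h2 h3).ne', Real.log_mul h2.ne' h3.ne'] at hL
  have h6 : plucker (initVec y) = plucker fun i : Fin d => E.pt (P i.castSucc) := rfl
  rw [h6] at h5
  linarith

theorem sum_sum_lt_castSucc {d : ℕ} (f : Fin (d + 1) → Fin (d + 1) → ℝ) :
    ∑ i, ∑ j, (if i < j then f i j else 0) =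
      (∑ i : Fin d, ∑ j : Fin d, (if i < j then f i.castSucc j.castSucc else 0)) +
        ∑ i : Fin d, f i.castSucc (Fin.last d) := by
  rw [Fin.sum_univ_castSucc]
  have hlast : ∑ j, (if Fin.last d < j then f (Fin.last d) j else 0) = 0 :=
    Finset.sum_eq_zero fun j _ => if_neg (not_lt.mpr (Fin.le_last j))
  rw [hlast, add_zero, ← Finset.sum_add_distrib]
  refine Finset.sum_congr rfl fun i _ => ?_
  rw [Fin.sum_univ_castSucc, if_pos (Fin.castSucc_lt_last i)]
  simp only [Fin.castSucc_lt_castSucc_iff]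

/-- **The local Vandermonde inequality.** -/
theorem log_supn_plucker_le (E : EmbData K F) {S : Finset K} {N : ℝ} (hL1 : L1Bound E S N)
    (v : AbsoluteValue K ℝ) (hv : IsGoodAbs v) :
    ∀ (d : ℕ) (P : Fin d → Place K F), Function.Injective P →
      d + 2 * genusR K F ≤ E.m + 1 →
      Real.log (supn v (plucker fun i => E.pt (P i))) ≤
        ∑ i, Real.log (supn v (E.pt (P i))) -
          ∑ i, ∑ j, (if i < j then lam v (E.pt (P i)) (E.pt (P j)) else 0) +
          d * (bnd v S N + E.m * cv v) := by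
  intro d
  induction d with
  | zero =>
    intro P _ _
    have h1 : supn v (plucker fun i : Fin 0 => E.pt (P i)) = 1 := by
      unfold supn
      have : ∀ e, v (plucker (fun i : Fin 0 => E.pt (P i)) e) = 1 := fun e => by
        unfold plucker
        rw [Matrix.det_isEmpty, v.map_one]
      simp only [this]
      have : Nonempty (Fin 0 ↪ Fin (E.r + 1)) := ⟨Function.Embedding.ofIsEmpty⟩
      exact ciSup_const
    rw [h1, Real.log_one]
    simp
  | succ d ih =>
    intro P hP hd
    have hne : (plucker fun i => E.pt (P i)) ≠ 0 := plucker_pt_ne_zero E P hP hd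
    obtain ⟨e₁, -⟩ := Function.ne_iff.mp hne
    have : Nonempty (Fin (d + 1) ↪ Fin (E.r + 1)) := ⟨e₁⟩
    obtain ⟨e₀, he₀⟩ := exists_eq_ciSup_of_finite
      (f := fun e => v (plucker (fun i => E.pt (P i)) e))
    have hsup : supn v (plucker fun i => E.pt (P i)) = v (plucker (fun i => E.pt (P i)) e₀) :=
      he₀.symm
    have hpos : 0 < supn v (plucker fun i => E.pt (P i)) := supn_pos v hne
    have he₀' : plucker (fun i => E.pt (P i)) e₀ ≠ 0 := by
      intro h
      rw [hsup, h, v.map_zero] at hpos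
      exact lt_irrefl _ hpos
    have step := log_plucker_le E hL1 v hv P hP e₀ he₀'
    have ih' := ih (fun i : Fin d => P i.castSucc) (hP.comp (Fin.castSucc_injective d))
      (by omega)
    rw [hsup, Fin.sum_univ_castSucc (f := fun i => Real.log (supn v (E.pt (P i)))),
      sum_sum_lt_castSucc (fun i j => lam v (E.pt (P i)) (E.pt (P j)))]
    push_cast
    linarith

end Curve

end Fermat.Agent.S17.H617V
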