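import Fermat.Agent.S17.H617.VdmLocal
import Fermat.Agent.S17.H380.LocalGlobalLe
import Fermat.Agent.S17.H380.E3OfL1

/-!
# S17 / tower H, contract leaf S-VDM (helper617): `(L1) ⟹ (VDM)`

`vdm_of_l1 : L1Statement E → d₀ + 2g ≤ m + 1 → VDMStatement E E d₀` over `Ω = ℚ̄` with a system
of absolute values (e.g. `H830.absSystemQbar`): the local Vandermonde inequality
(`VdmLocal.lean`) summed over all places by the one-sided local-to-global principle of helper380
(`H380.sum_absLogHeight_le`).  The degree hypothesis is necessary: without independence of the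
points the Plücker vector vanishes and `VDMStatement` is false.
-/

set_option autoImplicit false

noncomputable section

open AlgebraicCurve

namespace Fermat.Agent.S17.H617V

open Fermat.Agent.Lib.RR Fermat.Agent.S17.HWall Fermat.Agent.S17.HContract
open Fermat.Agent.S17.H830

section Bookkeeping

/-- the index type of the family of tuples of the Vandermonde inequality -/
abbrev VK (d : ℕ) : Type :=
  Unit ⊕ (Fin d ⊕ ((Fin d × Fin d) ⊕ ((Fin d × Fin d) ⊕ (Fin d × Fin d))))

/-- the coefficients -/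
def vdmC (d : ℕ) (D : ℝ) : VK d → ℝ :=
  Sum.elim (fun _ => D⁻¹) (Sum.elim (fun _ => -D⁻¹)
    (Sum.elim (fun p => if p.1 < p.2 then D⁻¹ else 0)
      (Sum.elim (fun p => if p.1 < p.2 then D⁻¹ else 0)
        (fun p => if p.1 < p.2 then -D⁻¹ else 0))))

/-- the tuples -/
def vdmT {d : ℕ} {α : Type*} (a₀ : α) (a₁ : Fin d → α) (a₂ : Fin d → Fin d → α) (a₃ : α) :
    VK d → α :=
  Sum.elim (fun _ => a₀) (Sum.elim a₁
    (Sum.elim (fun p => a₁ p.1)
      (Sum.elim (fun p => a₁ p.2)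
        (fun p => if p.1 < p.2 then a₂ p.1 p.2 else a₃))))

theorem sum_vdm {d : ℕ} {α : Type*} (L : α → ℝ) (D : ℝ) (a₀ : α) (a₁ : Fin d → α)
    (a₂ : Fin d → Fin d → α) (a₃ : α) :
    ∑ k, vdmC d D k * L (vdmT a₀ a₁ a₂ a₃ k) =
      D⁻¹ * (L a₀ - ∑ i, L (a₁ i) +
        ∑ i, ∑ j, if i < j then (L (a₁ i) + L (a₁ j) - L (a₂ i j)) else 0) := by
  unfold vdmC vdmT
  simp only [Fintype.sum_sum_type, Sum.elim_inl, Sum.elim_inr, Finset.univ_unique,
    Finset.sum_singleton, Fintype.sum_prod_type]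
  have key : (∑ i : Fin d, ∑ j : Fin d, (if i < j then D⁻¹ else 0) * L (a₁ i)) +
      ((∑ i : Fin d, ∑ j : Fin d, (if i < j then D⁻¹ else 0) * L (a₁ j)) +
        ∑ i : Fin d, ∑ j : Fin d,
          (if i < j then -D⁻¹ else 0) * L (if i < j then a₂ i j else a₃)) =
      D⁻¹ * ∑ i, ∑ j, if i < j then (L (a₁ i) + L (a₁ j) - L (a₂ i j)) else 0 := by
    simp only [← Finset.sum_add_distrib, Finset.mul_sum]
    refine Finset.sum_congr rfl fun i _ => Finset.sum_congr rfl fun j _ => ?_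
    split_ifs
    · ring
    · ring
  rw [key, ← Finset.mul_sum]
  ring

end Bookkeeping

section Main

variable {Ω : Type*} [Field Ω] [CharZero Ω] [IsAlgClosed Ω] [Algebra.IsAlgebraic ℚ Ω]
variable {F : Type*} [Field F] [Algebra Ω F] [FF1 Ω F]

omit [CharZero Ω] [IsAlgClosed Ω] [Algebra.IsAlgebraic ℚ Ω] in
/-- `bnd v S N + m c_v ≤ bnd v S (max N 0 + m log 2)`, and the latter is `≥ 0` -/
theorem bnd_add_cv_le (v : AbsoluteValue Ω ℝ) (S : Finset Ω) (N : ℝ) (m : ℕ) :
    bnd v S N + m * cv v ≤ H380.bndV v S (max N 0 + m * Real.log 2) ∧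
      0 ≤ H380.bndV v S (max N 0 + m * Real.log 2) := by
  have hlog : 0 ≤ Real.log 2 := Real.log_nonneg (by norm_num)
  have hm : (0 : ℝ) ≤ (m : ℝ) * Real.log 2 := mul_nonneg (Nat.cast_nonneg m) hlog
  have hsum : 0 ≤ ∑ c ∈ S, |Real.log (v c)| := Finset.sum_nonneg fun c _ => abs_nonneg _
  unfold bnd H380.bndV cv
  split_ifs with h
  · constructor
    · simp
    · simpa using hsum
  · constructor
    · have := le_max_left N 0
      linarith
    · have := le_max_right N 0
      linarith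

/-- **(L1) ⟹ (VDM)**, for `E₁ = E₂ = E`, over `Ω = ℚ̄` with a system of absolute values. -/
theorem vdm_of_l1 (S : AbsSystem Ω) (E : EmbData Ω F) (h : L1Statement E) (d₀ : ℕ)
    (hd₀ : d₀ + 2 * genusR Ω F ≤ E.m + 1) : VDMStatement E E d₀ := by
  classical
  obtain ⟨T, N, hT, hL1⟩ := h
  have hL1' : L1Bound E T N := hL1
  set N' : ℝ := max N 0 + E.m * Real.log 2 with hN'
  set C' : ℝ := max N' 0 + ∑ t ∈ T, (H380.absLogHeight (![t, 1] : Fin 2 → Ω) +
    H380.absLogHeight (![t⁻¹, 1] : Fin 2 → Ω)) with hC'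
  set D : ℝ := (d₀ : ℝ) + 1 with hDdef
  have hDpos : 0 < D := by positivity
  refine ⟨D * C', fun d P hd hP => ?_⟩
  have hdm : d + 2 * genusR Ω F ≤ E.m + 1 := by omega
  have hint : ∀ z : Ω, IsIntegral ℚ z := fun z => Algebra.IsIntegral.isIntegral z
  -- nonvanishing
  have hY : (plucker fun i => E.pt (P i)) ≠ 0 := plucker_pt_ne_zero E P hP hdm
  obtain ⟨e₁, -⟩ := Function.ne_iff.mp hY
  have hw : ∀ i j, i < j → wedge (E.pt (P i)) (E.pt (P j)) ≠ 0 := fun i j hij =>
    wedge_pt_ne_zero E fun hPij => (ne_of_lt hij) (hP hPij)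
  -- the common index type
  let J := (Fin d ↪ Fin (E.r + 1)) × (Fin (E.r + 1) × Fin (E.r + 1))
  let f₀ : J → (Fin d ↪ Fin (E.r + 1)) := Prod.fst
  let f₁ : J → Fin (E.r + 1) := fun q => q.2.1
  let f₂ : J → Fin (E.r + 1) × Fin (E.r + 1) := Prod.snd
  have hf₀ : Function.Surjective f₀ := fun e => ⟨(e, (0, 0)), rfl⟩
  have hf₁ : Function.Surjective f₁ := fun i => ⟨(e₁, (i, i)), rfl⟩
  have hf₂ : Function.Surjective f₂ := fun p => ⟨(e₁, p), rfl⟩
  have hcomp_ne : ∀ {ι' : Type} (f : J → ι'), Function.Surjective f → ∀ w : ι' → Ω, w ≠ 0 →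
      w ∘ f ≠ 0 := by
    intro ι' f hf w hw h0
    obtain ⟨i, hi⟩ := Function.ne_iff.mp hw
    obtain ⟨q, rfl⟩ := hf i
    exact hi (congrFun h0 q)
  -- the family of tuples
  let y : VK d → J → Ω := vdmT ((plucker fun i => E.pt (P i)) ∘ f₀)
    (fun i => E.pt (P i) ∘ f₁) (fun i j => wedge (E.pt (P i)) (E.pt (P j)) ∘ f₂) (fun _ => 1)
  have hy : ∀ k, y k ≠ 0 := by
    rintro (_ | (i | (p | (p | p))))
    · exact hcomp_ne f₀ hf₀ _ hY
    · exact hcomp_ne f₁ hf₁ _ (pt_ne_zero E (P i))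
    · exact hcomp_ne f₁ hf₁ _ (pt_ne_zero E (P p.1))
    · exact hcomp_ne f₁ hf₁ _ (pt_ne_zero E (P p.2))
    · show (if p.1 < p.2 then wedge (E.pt (P p.1)) (E.pt (P p.2)) ∘ f₂ else fun _ => 1) ≠ 0
      split_ifs with hp
      · exact hcomp_ne f₂ hf₂ _ (hw p.1 p.2 hp)
      · intro h0
        exact one_ne_zero (congrFun h0 (e₁, (0, 0)))
  -- the local bound
  have hloc : ∀ v : AbsoluteValue Ω ℝ, H380.IsGoodAbsV v →
      ∑ k, vdmC d D k * Real.log (⨆ i, v (y k i)) ≤ H380.bndV v T N' := by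
    intro v hv
    have hsum := sum_vdm (fun z : J → Ω => Real.log (⨆ i, v (z i))) D
      ((plucker fun i => E.pt (P i)) ∘ f₀)
      (fun i => E.pt (P i) ∘ f₁) (fun i j => wedge (E.pt (P i)) (E.pt (P j)) ∘ f₂) (fun _ => 1)
    have e0 : (⨆ q : J, v (((plucker fun i => E.pt (P i)) ∘ f₀) q)) =
        supn v (plucker fun i => E.pt (P i)) :=
      H380.supn_comp_surjective v f₀ hf₀ _
    have e1 : ∀ i, (⨆ q : J, v ((E.pt (P i) ∘ f₁) q)) = supn v (E.pt (P i)) := fun i =>
      H380.supn_comp_surjective v f₁ hf₁ _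
    have e2 : ∀ i j, (⨆ q : J, v ((wedge (E.pt (P i)) (E.pt (P j)) ∘ f₂) q)) =
        supn v (wedge (E.pt (P i)) (E.pt (P j))) := fun i j =>
      H380.supn_comp_surjective v f₂ hf₂ _
    simp only [e0, e1, e2] at hsum
    have hlam : ∀ i j : Fin d, (if i < j then
        (Real.log (supn v (E.pt (P i))) + Real.log (supn v (E.pt (P j))) -
          Real.log (supn v (wedge (E.pt (P i)) (E.pt (P j))))) else 0) =
        if i < j then lam v (E.pt (P i)) (E.pt (P j)) else 0 := by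
      intro i j
      split_ifs with hij
      · unfold lam
        have h1 := supn_pos v (hw i j hij)
        have h2 := supn_pos v (pt_ne_zero E (P i))
        have h3 := supn_pos v (pt_ne_zero E (P j))
        rw [Real.log_div h1.ne' (mul_pos h2 h3).ne', Real.log_mul h2.ne' h3.ne']
        ring
      · rfl
    simp only [hlam] at hsum
    have hmain := log_supn_plucker_le E hL1' v hv d P hP hdm
    obtain ⟨hb1, hb2⟩ := bnd_add_cv_le v T N E.m
    have hdD : (d : ℝ) ≤ D := by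
      have : (d : ℝ) ≤ (d₀ : ℝ) := by exact_mod_cast hd
      linarith
    have hd0 : (0 : ℝ) ≤ (d : ℝ) := Nat.cast_nonneg d
    have hstep : Real.log (supn v (plucker fun i => E.pt (P i))) -
        ∑ i, Real.log (supn v (E.pt (P i))) +
        ∑ i, ∑ j, (if i < j then lam v (E.pt (P i)) (E.pt (P j)) else 0) ≤
        D * H380.bndV v T N' := by
      have h1 : (d : ℝ) * (bnd v T N + E.m * cv v) ≤ (d : ℝ) * H380.bndV v T N' :=
        mul_le_mul_of_nonneg_left hb1 hd0
      have h2 : (d : ℝ) * H380.bndV v T N' ≤ D * H380.bndV v T N' :=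
        mul_le_mul_of_nonneg_right hdD hb2
      linarith
    calc ∑ k, vdmC d D k * Real.log (⨆ i, v (y k i))
        = D⁻¹ * (Real.log (supn v (plucker fun i => E.pt (P i))) -
            ∑ i, Real.log (supn v (E.pt (P i))) +
            ∑ i, ∑ j, (if i < j then lam v (E.pt (P i)) (E.pt (P j)) else 0)) := hsum
      _ ≤ D⁻¹ * (D * H380.bndV v T N') :=
        mul_le_mul_of_nonneg_left hstep (inv_pos.mpr hDpos).le
      _ = H380.bndV v T N' := by
        rw [← mul_assoc, inv_mul_cancel₀ hDpos.ne', one_mul]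
  -- local to global
  have key := H380.sum_absLogHeight_le S (ι := fun _ => J) y hy (vdmC d D) T hT N' hloc
  have hglob := sum_vdm (fun z : J → Ω => H380.absLogHeight z) D
    ((plucker fun i => E.pt (P i)) ∘ f₀)
    (fun i => E.pt (P i) ∘ f₁) (fun i j => wedge (E.pt (P i)) (E.pt (P j)) ∘ f₂) (fun _ => 1)
  have g0 : H380.absLogHeight ((plucker fun i => E.pt (P i)) ∘ f₀) =
      H380.absLogHeight (plucker fun i => E.pt (P i)) :=
    H380.absLogHeight_comp_surjective f₀ hf₀ _ fun _ => hint _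
  have g1 : ∀ i, H380.absLogHeight (E.pt (P i) ∘ f₁) = H380.absLogHeight (E.pt (P i)) :=
    fun i => H380.absLogHeight_comp_surjective f₁ hf₁ _ fun _ => hint _
  have g2 : ∀ i j, H380.absLogHeight (wedge (E.pt (P i)) (E.pt (P j)) ∘ f₂) =
      H380.absLogHeight (wedge (E.pt (P i)) (E.pt (P j))) :=
    fun i j => H380.absLogHeight_comp_surjective f₂ hf₂ _ fun _ => hint _
  simp only [g0, g1, g2] at hglob
  have hkey : D⁻¹ * (H380.absLogHeight (plucker fun i => E.pt (P i)) -
      ∑ i, H380.absLogHeight (E.pt (P i)) +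
      ∑ i, ∑ j, (if i < j then (H380.absLogHeight (E.pt (P i)) + H380.absLogHeight (E.pt (P j)) -
        H380.absLogHeight (wedge (E.pt (P i)) (E.pt (P j)))) else 0)) ≤ C' := by
    rw [← hglob]
    exact key
  have hfin : H380.absLogHeight (plucker fun i => E.pt (P i)) -
      ∑ i, H380.absLogHeight (E.pt (P i)) +
      ∑ i, ∑ j, (if i < j then (H380.absLogHeight (E.pt (P i)) + H380.absLogHeight (E.pt (P j)) -
        H380.absLogHeight (wedge (E.pt (P i)) (E.pt (P j)))) else 0) ≤ D * C' := by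
    have := mul_le_mul_of_nonneg_left hkey hDpos.le
    rwa [← mul_assoc, mul_inv_cancel₀ hDpos.ne', one_mul] at this
  show ht (plucker fun i => E.pt (P i)) ≤
    (∑ i, ht (E.pt (P i))) - (∑ i, ∑ j, if i < j then hD E (P i) (P j) else 0) + D * C'
  unfold hD ht
  linarith

end Main

end Fermat.Agent.S17.H617V
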